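import Mathlib.LinearAlgebra.Dimension.Constructions
import Mathlib.LinearAlgebra.Matrix.NonsingularInverse
import Mathlib.LinearAlgebra.Matrix.Symmetric
import Mathlib.LinearAlgebra.Matrix.ToLin
import Mathlib.Data.Finset.Sort
import Mathlib.Tactic

/-!
# Anticommuting square roots of `-1`

The products over subsets of pairwise anticommuting square roots of `-1` are independent as long
as no two subsets are complementary, and a bilinear identity between sums of squares gives such
matrices, skew symmetric.
-/

set_option autoImplicit false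

noncomputable section

namespace FA.SquareIdentities

open Matrix Finset

variable {K : Type*} [Field K] {m n : ℕ}

/-- Pairwise anticommuting square roots of `-1`. -/
def AntiRoots (B : Fin m → Matrix (Fin n) (Fin n) K) : Prop :=
  (∀ i, B i * B i = -1) ∧ ∀ i j, i ≠ j → B i * B j = -(B j * B i)

/-- The product along a set in increasing order. -/
def setProd (B : Fin m → Matrix (Fin n) (Fin n) K) (S : Finset (Fin m)) :
    Matrix (Fin n) (Fin n) K :=
  ((S.sort (· ≤ ·)).map B).prod

/-- The sign of conjugation by the `i`-th root. -/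
def conjSign (S : Finset (Fin m)) (i : Fin m) : ℕ := #S + if i ∈ S then 1 else 0

theorem mul_list_prod {B : Fin m → Matrix (Fin n) (Fin n) K} (hB : AntiRoots B) (i : Fin m) :
    ∀ l : List (Fin m), l.Nodup → B i * (l.map B).prod =
      ((-1 : K) ^ (l.length + if i ∈ l then 1 else 0)) • ((l.map B).prod * B i)
  | [], _ => by simp
  | b :: l, h => by
    obtain ⟨hb, hl⟩ := List.nodup_cons.1 h
    rw [List.map_cons, List.prod_cons, ← Matrix.mul_assoc]
    rcases eq_or_ne i b with rfl | hne
    · rw [Matrix.mul_assoc]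
      conv_lhs => rw [mul_list_prod hB i l hl, Matrix.mul_smul, ← Matrix.mul_assoc]
      rw [if_neg hb, if_pos List.mem_cons_self, List.length_cons]
      congr 1
      simp [pow_succ]
    · rw [hB.2 i b hne, Matrix.neg_mul, Matrix.mul_assoc, mul_list_prod hB i l hl, Matrix.mul_smul,
        ← Matrix.mul_assoc, List.length_cons, ← neg_smul]
      congr 1
      simp only [List.mem_cons, hne, false_or]
      ring

theorem list_prod_ne_zero {B : Fin m → Matrix (Fin n) (Fin n) K} (hB : AntiRoots B) (hn : 0 < n)
    (l : List (Fin m)) : (l.map B).prod ≠ 0 := by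
  have : Nonempty (Fin n) := ⟨⟨0, hn⟩⟩
  have hu : IsUnit (l.map B).prod := by
    induction l with
    | nil => simp
    | cons b l ih =>
      rw [List.map_cons, List.prod_cons]
      exact (IsUnit.of_mul_eq_one (-(B b)) (by rw [Matrix.mul_neg, hB.1, neg_neg])).mul ih
  exact hu.ne_zero

theorem neg_conj_setProd {B : Fin m → Matrix (Fin n) (Fin n) K} (hB : AntiRoots B)
    (S : Finset (Fin m)) (i : Fin m) :
    -(B i * setProd B S * B i) = ((-1 : K) ^ conjSign S i) • setProd B S := by
  rw [setProd, mul_list_prod hB i _ (sort_nodup _ _), Matrix.smul_mul, Matrix.mul_assoc, hB.1,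
    Matrix.mul_neg, Matrix.mul_one, smul_neg, neg_neg]
  simp [conjSign]

theorem eq_or_compl_of_conjSign {S T : Finset (Fin m)}
    (h : ∀ i, (-1 : K) ^ conjSign S i = (-1) ^ conjSign T i) (h2 : (2 : K) ≠ 0) :
    T = S ∨ T = Sᶜ := by
  have key : ∀ i, (Even (conjSign S i) ↔ Even (conjSign T i)) := fun i => by
    have hone : (1 : K) ≠ -1 := fun e => h2 (by linear_combination e)
    have := h i
    rcases Nat.even_or_odd (conjSign S i) with hs | hs <;>
      rcases Nat.even_or_odd (conjSign T i) with ht | ht
    · simp [hs, ht]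
    · rw [hs.neg_one_pow, ht.neg_one_pow] at this
      exact absurd this hone
    · rw [hs.neg_one_pow, ht.neg_one_pow] at this
      exact absurd this.symm hone
    · simp [Nat.not_even_iff_odd.2 hs, Nat.not_even_iff_odd.2 ht]
  simp only [conjSign, Nat.even_iff] at key
  by_cases hp : #S % 2 = #T % 2
  · refine Or.inl (Finset.ext fun i => ?_)
    have := key i
    by_cases hS : i ∈ S <;> by_cases hT : i ∈ T <;>
      simp only [hS, hT, if_true, if_false] at this ⊢ <;> omega
  · refine Or.inr (Finset.ext fun i => ?_)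
    have := key i
    rw [mem_compl]
    by_cases hS : i ∈ S <;> by_cases hT : i ∈ T <;>
      simp only [hS, hT, if_true, if_false, not_true, not_false_iff] at this ⊢ <;> omega

/-- **Independence.** -/
theorem linearIndependent_setProd {B : Fin m → Matrix (Fin n) (Fin n) K} (hB : AntiRoots B)
    (hn : 0 < n) (h2 : (2 : K) ≠ 0) {F : Finset (Finset (Fin m))}
    (hF : ∀ S ∈ F, ∀ T ∈ F, T = Sᶜ → T = S) :
    LinearIndependent K fun S : F => setProd B (S : Finset (Fin m)) := by
  classical
  rw [Fintype.linearIndependent_iff]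
  intro a ha T
  have key : ∀ I : Finset (Fin m), ∑ S : F, (if ∀ i ∈ I,
      (-1 : K) ^ conjSign (S : Finset (Fin m)) i = (-1) ^ conjSign (T : Finset (Fin m)) i
        then a S else 0) • setProd B (S : Finset (Fin m)) = 0 := by
    intro I
    induction I using Finset.induction_on with
    | empty => simpa using ha
    | insert i I hi ih =>
      obtain ⟨b, hb⟩ : ∃ b : F → K, b = fun S : F => if ∀ i ∈ I,
          (-1 : K) ^ conjSign (S : Finset (Fin m)) i = (-1) ^ conjSign (T : Finset (Fin m)) i
            then a S else 0 := ⟨_, rfl⟩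
      obtain ⟨e, he⟩ : ∃ e : Finset (Fin m) → K, e = fun S => (-1 : K) ^ conjSign S i := ⟨_, rfl⟩
      have h0 : ∑ S : F, b S • setProd B (S : Finset (Fin m)) = 0 := hb ▸ ih
      have h1 : ∑ S : F, (b S * e S) • setProd B (S : Finset (Fin m)) = 0 := by
        have h := congrArg (fun X => -(B i * X * B i)) h0
        simp only [Matrix.mul_sum, Matrix.sum_mul, Matrix.mul_zero, Matrix.zero_mul, neg_zero,
          ← sum_neg_distrib, Matrix.mul_smul, Matrix.smul_mul, ← smul_neg,
          neg_conj_setProd hB, smul_smul] at h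
        rw [he]
        exact h
      have h3 : ∑ S : F, (b S * (1 + e S * e T)) • setProd B (S : Finset (Fin m)) = 0 := by
        have := congrArg₂ (· + ·) h0 (congrArg (fun X => e T • X) h1)
        simp only [smul_sum, smul_smul, smul_zero, add_zero, ← sum_add_distrib, ← add_smul] at this
        refine Eq.trans (sum_congr rfl fun S _ => ?_) this
        congr 1
        ring
      have h4 : (2 : K) • (∑ S : F, (if ∀ j ∈ insert i I,
          (-1 : K) ^ conjSign (S : Finset (Fin m)) j = (-1) ^ conjSign (T : Finset (Fin m)) j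
            then a S else 0) • setProd B (S : Finset (Fin m))) = 0 := by
        rw [smul_sum]
        refine Eq.trans (sum_congr rfl fun S _ => ?_) h3
        rw [smul_smul]
        congr 1
        simp only [forall_mem_insert, hb, he]
        rcases neg_one_pow_eq_or K (conjSign (S : Finset (Fin m)) i) with hs | hs <;>
          rcases neg_one_pow_eq_or K (conjSign (T : Finset (Fin m)) i) with ht | ht <;>
          rw [hs, ht] <;>
          by_cases hI : ∀ j ∈ I,
            (-1 : K) ^ conjSign (S : Finset (Fin m)) j = (-1) ^ conjSign (T : Finset (Fin m)) j <;>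
          (have hone : (1 : K) ≠ -1 := fun e => h2 (by linear_combination e)
           simp [hI, hone, hone.symm]) <;> ring_nf
      exact (smul_eq_zero.1 h4).resolve_left h2
  have h := key univ
  rw [Fintype.sum_eq_single T] at h
  · rw [if_pos fun i _ => rfl] at h
    exact (smul_eq_zero.1 h).resolve_right (list_prod_ne_zero hB hn _)
  · intro S hS
    rw [if_neg, zero_smul]
    intro hall
    refine hS (Subtype.ext ?_)
    rcases eq_or_compl_of_conjSign (fun i => hall i (mem_univ i)) h2 with e | e
    · exact e.symm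
    · exact (hF S S.2 T T.2 e).symm

/-- `2 ^ (m - 1) ≤ n ^ 2`. -/
theorem two_pow_le_sq {B : Fin (m + 1) → Matrix (Fin n) (Fin n) K} (hB : AntiRoots B) (hn : 0 < n)
    (h2 : (2 : K) ≠ 0) : 2 ^ m ≤ n * n := by
  classical
  obtain ⟨F, hFdef⟩ : ∃ F : Finset (Finset (Fin (m + 1))),
      F = (univ.erase (Fin.last m)).powerset := ⟨_, rfl⟩
  have hF : ∀ S ∈ F, ∀ T ∈ F, T = Sᶜ → T = S := by
    intro S hS T hT he
    rw [hFdef, mem_powerset] at hS hT
    have h1 : Fin.last m ∉ S := fun h => (mem_erase.1 (hS h)).1 rfl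
    have h2' : Fin.last m ∈ T := he ▸ mem_compl.2 h1
    exact absurd rfl (mem_erase.1 (hT h2')).1
  have h := (linearIndependent_setProd hB hn h2 hF).fintype_card_le_finrank
  rwa [Fintype.card_coe, hFdef, card_powerset, card_erase_of_mem (mem_univ _), card_univ,
    Fintype.card_fin, Nat.add_sub_cancel, Module.finrank_matrix, Module.finrank_self, mul_one,
    Fintype.card_fin] at h

theorem transpose_list_prod {B : Fin m → Matrix (Fin n) (Fin n) K} (hB : AntiRoots B)
    (hskew : ∀ i, (B i)ᵀ = -B i) : ∀ l : List (Fin m), l.Nodup →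
      (l.map B).prodᵀ = (-1 : K) ^ (l.length * (l.length + 1) / 2) • (l.map B).prod
  | [], _ => by simp
  | b :: l, h => by
    obtain ⟨hb, hl⟩ := List.nodup_cons.1 h
    rw [List.map_cons, List.prod_cons, Matrix.transpose_mul, hskew,
      transpose_list_prod hB hskew l hl,
      Matrix.mul_neg, Matrix.smul_mul, mul_list_prod hB b l hl, if_neg hb, smul_smul, ← pow_add,
      ← neg_smul, List.length_cons]
    congr 1
    rw [show (l.length + 1) * (l.length + 1 + 1) = l.length * (l.length + 1) + (l.length + 1) * 2 by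
      ring, Nat.add_mul_div_right _ _ two_pos]
    simp [pow_add]
    rw [mul_assoc, ← pow_add, ← two_mul, pow_mul]
    simp

/-- No five such skew matrices of size six. -/
theorem not_five_six {B : Fin 5 → Matrix (Fin 6) (Fin 6) K} (hB : AntiRoots B)
    (hskew : ∀ i, (B i)ᵀ = -B i) (h2 : (2 : K) ≠ 0) : False := by
  classical
  obtain ⟨F, hFdef⟩ : ∃ F : Finset (Finset (Fin 5)),
      F = univ.filter fun S => #S = 1 ∨ #S = 2 ∨ #S = 5 := ⟨_, rfl⟩
  have hF : ∀ S ∈ F, ∀ T ∈ F, T = Sᶜ → T = S := by
    intro S hS T hT he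
    rw [hFdef, mem_filter] at hS hT
    rw [he, card_compl, Fintype.card_fin] at hT
    omega
  have hcard : #F = 16 := by rw [hFdef]; decide
  have hli := linearIndependent_setProd hB (show 0 < 6 by norm_num) h2 hF
  obtain ⟨U, hU⟩ : ∃ U : Finset (Fin 6 × Fin 6), U = univ.filter fun q => q.1 < q.2 := ⟨_, rfl⟩
  obtain ⟨L, hL⟩ : ∃ L : Matrix (Fin 6) (Fin 6) K →ₗ[K] (U → K),
      ∀ X q, L X q = X (q : Fin 6 × Fin 6).1 (q : Fin 6 × Fin 6).2 :=
    ⟨{ toFun := fun X q => X (q : Fin 6 × Fin 6).1 (q : Fin 6 × Fin 6).2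
       map_add' := fun X Y => by funext q; simp
       map_smul' := fun a X => by funext q; simp }, fun X q => rfl⟩
  have hskewS : ∀ S ∈ F, (setProd B S)ᵀ = -setProd B S := by
    intro S hS
    rw [hFdef, mem_filter] at hS
    rw [setProd, transpose_list_prod hB hskew _ (sort_nodup _ _), length_sort]
    rcases hS.2 with h | h | h <;> rw [h] <;> norm_num
  have hli' : LinearIndependent K fun S : F => L (setProd B (S : Finset (Fin 5))) := by
    rw [Fintype.linearIndependent_iff]
    intro a ha
    refine Fintype.linearIndependent_iff.1 hli a ?_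
    obtain ⟨X, hX⟩ : ∃ X, X = ∑ S : F, a S • setProd B (S : Finset (Fin 5)) := ⟨_, rfl⟩
    have hXt : Xᵀ = -X := by
      rw [hX, Matrix.transpose_sum, ← sum_neg_distrib]
      exact sum_congr rfl fun S _ => by rw [Matrix.transpose_smul, hskewS _ S.2, smul_neg]
    have hLX : ∀ q : U, X (q : Fin 6 × Fin 6).1 (q : Fin 6 × Fin 6).2 = 0 := fun q => by
      rw [← hL X q, hX, map_sum]
      simp only [map_smul]
      rw [ha]
      rfl
    rw [← hX]
    ext i j
    have hneg : ∀ i j, X j i = -X i j := fun i j => by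
      rw [← Matrix.neg_apply, ← hXt, Matrix.transpose_apply]
    rcases lt_trichotomy i j with h | h | h
    · exact hLX ⟨(i, j), hU ▸ mem_filter.2 ⟨mem_univ _, h⟩⟩
    · subst h
      have := hneg i i
      exact (mul_eq_zero.1 (show (2 : K) * X i i = 0 by linear_combination this)).resolve_left h2
    · rw [hneg j i, hLX ⟨(j, i), hU ▸ mem_filter.2 ⟨mem_univ _, h⟩⟩, neg_zero, Matrix.zero_apply]
  have h := hli'.fintype_card_le_finrank
  rw [Fintype.card_coe, hcard, Module.finrank_fintype_fun_eq_card, Fintype.card_coe, hU] at h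
  exact absurd h (by decide)

/-- **From an identity to anticommuting roots.** -/
theorem exists_antiRoots {r : ℕ}
    (z : (Fin (r + 1) → K) →ₗ[K] (Fin n → K) →ₗ[K] (Fin n → K)) (h2 : (2 : K) ≠ 0)
    (hz : ∀ x y, z x y ⬝ᵥ z x y = x ⬝ᵥ x * (y ⬝ᵥ y)) :
    ∃ B : Fin r → Matrix (Fin n) (Fin n) K, AntiRoots B ∧ ∀ i, (B i)ᵀ = -B i := by
  have h1 : ∀ x y y', z x y ⬝ᵥ z x y' = x ⬝ᵥ x * (y ⬝ᵥ y') := fun x y y' => by
    have h := hz x (y + y')
    simp only [map_add, add_dotProduct, dotProduct_add, hz] at h
    rw [dotProduct_comm (z x y') (z x y), dotProduct_comm y' y] at h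
    exact mul_left_cancel₀ h2 (by linear_combination h)
  have h12 : ∀ x x' y y', z x y ⬝ᵥ z x' y' + z x' y ⬝ᵥ z x y' = 2 * (x ⬝ᵥ x') * (y ⬝ᵥ y') :=
    fun x x' y y' => by
      have h := h1 (x + x') y y'
      simp only [map_add, LinearMap.add_apply, add_dotProduct, dotProduct_add, h1] at h
      rw [dotProduct_comm x' x] at h
      linear_combination h
  obtain ⟨A, hA⟩ : ∃ A : Fin (r + 1) → Matrix (Fin n) (Fin n) K,
      A = fun i => LinearMap.toMatrix' (z (Pi.single i 1)) := ⟨_, rfl⟩
  have hAA : ∀ i j, (A i)ᵀ * A j + (A j)ᵀ * A i = if i = j then 2 else 0 := by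
    intro i j
    ext a b
    have h := h12 (Pi.single i 1) (Pi.single j 1) (Pi.single a 1) (Pi.single b 1)
    simp only [dotProduct_single, mul_one] at h
    simp only [Matrix.add_apply, Matrix.mul_apply, Matrix.transpose_apply, hA,
      LinearMap.toMatrix'_apply]
    simp only [dotProduct] at h
    refine Eq.trans h ?_
    by_cases hij : i = j <;> by_cases hab : a = b <;>
      simp [hij, hab, eq_comm (a := j) (b := i),
        eq_comm (a := b) (b := a), ← Nat.cast_two (R := Matrix (Fin n) (Fin n) K),
        Matrix.natCast_apply]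
  have hone : ∀ i, (A i)ᵀ * A i = 1 := fun i => by
    have h := hAA i i
    rw [if_pos rfl, ← two_smul K, show (2 : Matrix (Fin n) (Fin n) K) = (2 : K) • 1 by
      rw [two_smul, one_add_one_eq_two]] at h
    exact smul_right_injective (Matrix (Fin n) (Fin n) K) h2 h
  have hanti : ∀ i j, i ≠ j → (A j)ᵀ * A i = -((A i)ᵀ * A j) := fun i j hij => by
    have h := hAA i j
    rw [if_neg hij] at h
    exact eq_neg_of_add_eq_zero_right h
  have hlast : A (Fin.last r) * (A (Fin.last r))ᵀ = 1 := mul_eq_one_comm.1 (hone _)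
  obtain ⟨B, hB⟩ : ∃ B : Fin r → Matrix (Fin n) (Fin n) K,
      B = fun i => (A (Fin.last r))ᵀ * A i.castSucc := ⟨_, rfl⟩
  have hskew : ∀ i, (B i)ᵀ = -B i := fun i => by
    simp only [hB, Matrix.transpose_mul, transpose_transpose]
    exact hanti _ _ (Fin.castSucc_lt_last i).ne'
  have hprod : ∀ i j, (B i)ᵀ * B j = (A i.castSucc)ᵀ * A j.castSucc := fun i j => by
    simp only [hB, Matrix.transpose_mul, transpose_transpose]
    rw [Matrix.mul_assoc, ← Matrix.mul_assoc (A (Fin.last r)), hlast, Matrix.one_mul]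
  refine ⟨B, ⟨fun i => ?_, fun i j hij => ?_⟩, hskew⟩
  · have := hprod i i
    rw [hskew, hone, Matrix.neg_mul] at this
    exact neg_eq_iff_eq_neg.1 this
  · have e1 := hprod i j
    have e2 := hprod j i
    rw [hskew, Matrix.neg_mul] at e1 e2
    have := hanti i.castSucc j.castSucc fun h => hij (Fin.castSucc_injective r h)
    rw [← e2, ← e1, neg_neg] at this
    exact this.symm

end FA.SquareIdentities
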