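import Mathlib.Algebra.BigOperators.Fin
import Mathlib.Data.Matrix.Mul
import Mathlib.LinearAlgebra.BilinearMap
import Mathlib.Tactic

/-!
# The identities of Euler and Degen

The products of complex numbers, quaternions and octaves multiply sums of two, four and eight
squares.
-/

set_option autoImplicit false
set_option linter.unnecessarySeqFocus false
set_option linter.unusedSimpArgs false

noncomputable section

namespace FA.SquareIdentities

open Matrix

variable {K : Type*} [CommRing K]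

/-- The product formula of length `1`. -/
def zMap1 (x y : Fin 1 → K) : Fin 1 → K :=
  ![x 0 * y 0]

/-- The identity for `1` square. -/
theorem exists_identity_one : ∃ z : (Fin 1 → K) →ₗ[K] (Fin 1 → K) →ₗ[K] (Fin 1 → K),
    ∀ x y, z x y ⬝ᵥ z x y = x ⬝ᵥ x * (y ⬝ᵥ y) := by
  refine ⟨LinearMap.mk₂ K zMap1 ?_ ?_ ?_ ?_, fun x y => ?_⟩
  · intro a b c
    funext k
    fin_cases k <;> simp [zMap1] <;> ring
  · intro r a c
    funext k
    fin_cases k <;> simp [zMap1] <;> ring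
  · intro a b c
    funext k
    fin_cases k <;> simp [zMap1] <;> ring
  · intro r a c
    funext k
    fin_cases k <;> simp [zMap1] <;> ring
  · simp [zMap1, dotProduct, Fin.sum_univ_succ]
    ring

/-- The product formula of length `2`. -/
def zMap2 (x y : Fin 2 → K) : Fin 2 → K :=
  ![x 0 * y 0 - x 1 * y 1,
      x 0 * y 1 + x 1 * y 0]

/-- The identity for `2` squares. -/
theorem exists_identity_two : ∃ z : (Fin 2 → K) →ₗ[K] (Fin 2 → K) →ₗ[K] (Fin 2 → K),
    ∀ x y, z x y ⬝ᵥ z x y = x ⬝ᵥ x * (y ⬝ᵥ y) := by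
  refine ⟨LinearMap.mk₂ K zMap2 ?_ ?_ ?_ ?_, fun x y => ?_⟩
  · intro a b c
    funext k
    fin_cases k <;> simp [zMap2] <;> ring
  · intro r a c
    funext k
    fin_cases k <;> simp [zMap2] <;> ring
  · intro a b c
    funext k
    fin_cases k <;> simp [zMap2] <;> ring
  · intro r a c
    funext k
    fin_cases k <;> simp [zMap2] <;> ring
  · simp [zMap2, dotProduct, Fin.sum_univ_succ]
    ring

/-- The product formula of length `4`. -/
def zMap4 (x y : Fin 4 → K) : Fin 4 → K :=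
  ![x 0 * y 0 - x 1 * y 1 - x 2 * y 2 - x 3 * y 3,
      x 0 * y 1 + x 1 * y 0 + x 2 * y 3 - x 3 * y 2,
      x 0 * y 2 - x 1 * y 3 + x 2 * y 0 + x 3 * y 1,
      x 0 * y 3 + x 1 * y 2 - x 2 * y 1 + x 3 * y 0]

/-- The identity for `4` squares. -/
theorem exists_identity_four : ∃ z : (Fin 4 → K) →ₗ[K] (Fin 4 → K) →ₗ[K] (Fin 4 → K),
    ∀ x y, z x y ⬝ᵥ z x y = x ⬝ᵥ x * (y ⬝ᵥ y) := by
  refine ⟨LinearMap.mk₂ K zMap4 ?_ ?_ ?_ ?_, fun x y => ?_⟩
  · intro a b c
    funext k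
    fin_cases k <;> simp [zMap4] <;> ring
  · intro r a c
    funext k
    fin_cases k <;> simp [zMap4] <;> ring
  · intro a b c
    funext k
    fin_cases k <;> simp [zMap4] <;> ring
  · intro r a c
    funext k
    fin_cases k <;> simp [zMap4] <;> ring
  · simp [zMap4, dotProduct, Fin.sum_univ_succ]
    ring

/-- The product formula of length `8`. -/
def zMap8 (x y : Fin 8 → K) : Fin 8 → K :=
  ![x 0 * y 0 - x 1 * y 1 - x 2 * y 2 - x 3 * y 3 - x 4 * y 4
        - x 5 * y 5 - x 6 * y 6 - x 7 * y 7,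
      x 0 * y 1 + x 1 * y 0 + x 2 * y 3 - x 3 * y 2 + x 4 * y 5
        - x 5 * y 4 - x 6 * y 7 + x 7 * y 6,
      x 0 * y 2 - x 1 * y 3 + x 2 * y 0 + x 3 * y 1 + x 4 * y 6
        + x 5 * y 7 - x 6 * y 4 - x 7 * y 5,
      x 0 * y 3 + x 1 * y 2 - x 2 * y 1 + x 3 * y 0 + x 4 * y 7
        - x 5 * y 6 + x 6 * y 5 - x 7 * y 4,
      x 0 * y 4 - x 1 * y 5 - x 2 * y 6 - x 3 * y 7 + x 4 * y 0
        + x 5 * y 1 + x 6 * y 2 + x 7 * y 3,
      x 0 * y 5 + x 1 * y 4 - x 2 * y 7 + x 3 * y 6 - x 4 * y 1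
        + x 5 * y 0 - x 6 * y 3 + x 7 * y 2,
      x 0 * y 6 + x 1 * y 7 + x 2 * y 4 - x 3 * y 5 - x 4 * y 2
        + x 5 * y 3 + x 6 * y 0 - x 7 * y 1,
      x 0 * y 7 - x 1 * y 6 + x 2 * y 5 + x 3 * y 4 - x 4 * y 3
        - x 5 * y 2 + x 6 * y 1 + x 7 * y 0]

/-- The identity for `8` squares. -/
theorem exists_identity_eight : ∃ z : (Fin 8 → K) →ₗ[K] (Fin 8 → K) →ₗ[K] (Fin 8 → K),
    ∀ x y, z x y ⬝ᵥ z x y = x ⬝ᵥ x * (y ⬝ᵥ y) := by
  refine ⟨LinearMap.mk₂ K zMap8 ?_ ?_ ?_ ?_, fun x y => ?_⟩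
  · intro a b c
    funext k
    fin_cases k <;> simp [zMap8] <;> ring
  · intro r a c
    funext k
    fin_cases k <;> simp [zMap8] <;> ring
  · intro a b c
    funext k
    fin_cases k <;> simp [zMap8] <;> ring
  · intro r a c
    funext k
    fin_cases k <;> simp [zMap8] <;> ring
  · simp [zMap8, dotProduct, Fin.sum_univ_succ]
    ring

end FA.SquareIdentities
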