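import Fermat.Agent.SquareIdentities.Clifford
import Fermat.Agent.SquareIdentities.Existence

/-!
# The theorem of Hurwitz

Bilinear identities of `n` squares exist exactly for `n = 1, 2, 4, 8`.
-/

set_option autoImplicit false

noncomputable section

namespace FA.SquareIdentities

open Matrix Finset

variable {K : Type*} [Field K]

theorem even_of_root {n : ℕ} {B : Matrix (Fin n) (Fin n) K} (hsq : B * B = -1) (hskew : Bᵀ = -B)
    (h2 : (2 : K) ≠ 0) : Even n := by
  by_contra hodd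
  rw [Nat.not_even_iff_odd] at hodd
  have h1 : B.det = -B.det := by
    conv_lhs => rw [← det_transpose, hskew, det_neg, Fintype.card_fin, hodd.neg_one_pow]
    ring
  have h0 : B.det = 0 :=
    (mul_eq_zero.1 (show (2 : K) * B.det = 0 by linear_combination h1)).resolve_left h2
  have h := congrArg Matrix.det hsq
  rw [det_mul, h0, mul_zero, det_neg, det_one, mul_one, Fintype.card_fin, hodd.neg_one_pow] at h
  simp at h

theorem two_pow_gt_sq : ∀ n : ℕ, 9 ≤ n → n * n < 2 ^ (n - 2) := by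
  intro n hn
  induction n, hn using Nat.le_induction with
  | base => norm_num
  | succ n hn ih =>
    rw [show n + 1 - 2 = (n - 2) + 1 by omega, pow_succ]
    nlinarith

/-- **Hurwitz.** -/
theorem eq_one_two_four_eight {n : ℕ} (hn : 0 < n) (h2 : (2 : K) ≠ 0)
    (z : (Fin n → K) →ₗ[K] (Fin n → K) →ₗ[K] (Fin n → K))
    (hz : ∀ x y, z x y ⬝ᵥ z x y = x ⬝ᵥ x * (y ⬝ᵥ y)) :
    n = 1 ∨ n = 2 ∨ n = 4 ∨ n = 8 := by
  rcases Nat.lt_or_ge n 2 with h | h
  · omega
  obtain ⟨m, rfl⟩ : ∃ m, n = m + 1 + 1 := ⟨n - 2, by omega⟩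
  obtain ⟨B, hB, hskew⟩ := exists_antiRoots z h2 hz
  have heven := even_of_root (hB.1 0) (hskew 0) h2
  have hle := two_pow_le_sq hB hn h2
  have hsmall : m + 1 + 1 < 9 := by
    by_contra hbig
    have h := two_pow_gt_sq (m + 1 + 1) (by omega)
    rw [show m + 1 + 1 - 2 = m by omega] at h
    omega
  rw [Nat.even_iff] at heven
  by_cases h4 : m = 4
  · subst h4
    exact (not_five_six hB hskew h2).elim
  · omega

/-- **Radon's bound** for identities `[r, n, n]`. -/
theorem radon_bound {r n : ℕ} (hr : 2 ≤ r) (hn : 0 < n) (h2 : (2 : K) ≠ 0)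
    (z : (Fin r → K) →ₗ[K] (Fin n → K) →ₗ[K] (Fin n → K))
    (hz : ∀ x y, z x y ⬝ᵥ z x y = x ⬝ᵥ x * (y ⬝ᵥ y)) :
    2 ^ (r - 2) ≤ n * n := by
  obtain ⟨m, rfl⟩ : ∃ m, r = m + 1 + 1 := ⟨r - 2, by omega⟩
  obtain ⟨B, hB, -⟩ := exists_antiRoots z h2 hz
  rw [show m + 1 + 1 - 2 = m by omega]
  exact two_pow_le_sq hB hn h2

end FA.SquareIdentities
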